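import Fermat.Agent.RowS58.Tate
import Fermat.Agent.SquareOld.Eigen
import Fermat.Prelude.Def_WeierstrassCurve_ConductorLevel
import Fermat.Prelude.Def_FLTPrelim_ModularRep

/-!
# Conductor-level matching

A prime of good reduction exactly dividing the level leaves it, a square of a prime `≠ p` drops to
a single prime; what remains divides the conductor level.
-/

set_option autoImplicit false

noncomputable section

open IsLocalRing

namespace Fermat.Agent.RowS58

open EllLocal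

local notation "Qbar" => AlgebraicClosure ℚ

variable {W : WeierstrassCurve ℤ} {p : ℕ}

theorem isElliptic_of_delta_ne_zero (hΔ : W.Δ ≠ 0) :
    (W.map (Int.castRingHom ℚ)).IsElliptic := by
  rw [WeierstrassCurve.isElliptic_iff, isUnit_iff_ne_zero, WeierstrassCurve.map_Δ,
    map_ne_zero_iff _ (Int.cast_injective (α := ℚ))]
  exact hΔ

theorem algebraMap_curveSystem (O : Type) [CommRing O] (K : Type) [CommRing K] [Algebra O K] :
    (fun ℓ => algebraMap O K (curveSystem W O ℓ)) = curveSystem W K :=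
  funext fun _ => map_intCast _ _

/-- The bad primes, the primes of `N` and the primes in `T`. -/
def badSet (W : WeierstrassCurve ℤ) (N : ℕ) (T : Finset ℕ) : Finset ℕ :=
  W.Δ.natAbs.primeFactors ∪ N.primeFactors ∪ T

theorem mem_badSet_of_dvd {N : ℕ} [NeZero N] {T : Finset ℕ} {ℓ : ℕ} (hℓ : ℓ.Prime) (h : ℓ ∣ N) :
    ℓ ∈ badSet W N T :=
  Finset.mem_union_left _ (Finset.mem_union_right _
    (Nat.mem_primeFactors.mpr ⟨hℓ, h, NeZero.ne N⟩))

theorem mem_badSet_of_dvd_delta (hΔ : W.Δ ≠ 0) {N : ℕ} {T : Finset ℕ} {ℓ : ℕ} (hℓ : ℓ.Prime)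
    (h : (ℓ : ℤ) ∣ W.Δ) : ℓ ∈ badSet W N T :=
  Finset.mem_union_left _ (Finset.mem_union_left _
    (Nat.mem_primeFactors.mpr ⟨hℓ, Int.natCast_dvd.mp h, Int.natAbs_ne_zero.mpr hΔ⟩))

theorem mem_badSet_of_mem {N : ℕ} {T : Finset ℕ} {ℓ : ℕ} (h : ℓ ∈ T) : ℓ ∈ badSet W N T :=
  Finset.mem_union_right _ h

/-- Dropping a prime of good reduction from a system over `ℤ_[p]`. -/
theorem occurs_drop [Fact p.Prime] [(W.map (Int.castRingHom ℚ)).IsElliptic] {M r : ℕ} [NeZero M]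
    (hr : r.Prime) (hrp : r ≠ p) (hrM : ¬ r ∣ M) (hgood : W.IsGoodPrimeFor r) {S : Finset ℕ}
    (hrS : r ∈ S) (hpS : p ∈ S) (hMS : ∀ q : ℕ, q.Prime → q ∣ M → q ∈ S)
    (hbadS : ∀ ℓ : ℕ, ℓ.Prime → (ℓ : ℤ) ∣ W.Δ → ℓ ∈ S)
    (h : Engine.Occurs (FractionRing ℤ_[p]) (M * r) 1 S (curveSystem W (FractionRing ℤ_[p]))) :
    Engine.Occurs (FractionRing ℤ_[p]) M 1 S (curveSystem W (FractionRing ℤ_[p])) := by
  have : CharZero (FractionRing ℤ_[p]) :=
    charZero_of_injective_algebraMap (IsFractionRing.injective ℤ_[p] _)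
  have : NeZero (M * r) := ⟨mul_ne_zero (NeZero.ne M) hr.ne_zero⟩
  obtain ⟨A, σ, hA, hσ⟩ := Frobenius.exists_liesOverPrime_and_isFrobeniusAt_qbar hr
  rw [← algebraMap_curveSystem ℤ_[p]] at h ⊢
  refine RowS36.occurs_down hr hrp hrM hrS hpS hMS (isAttached_tateRep hpS hbadS) ?_ h hA hσ ?_
  · rw [algebraMap_curveSystem]
    exact nonEisenstein W _ _ S
  · obtain ⟨b⟩ := nonempty_basis_tateModule (W.map (Int.castRingHom ℚ)) p
    rw [show (tateRep (W.map (Int.castRingHom ℚ)) p).trace σ = (W.apOfModel r : ℤ_[p]) from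
      (LinearMap.trace_eq_matrix_trace ℤ_[p] b (tateAct σ)).trans
        (TwoAdic.CurvePoint.trace_tateRep_frobenius hr hrp hgood hA hσ b)]
    exact apOfModel_sq_ne W hr

/-- A prime of good reduction exactly dividing the level leaves it. -/
theorem modular_div_good (hΔ : W.Δ ≠ 0) {M q : ℕ} [NeZero M] (hq : q.Prime) (hqM : ¬ q ∣ M)
    (hgood : W.IsGoodPrimeFor q) (hmod : W.IsModularModelOfLevel (M * q)) :
    W.IsModularModelOfLevel M := by
  obtain ⟨l, hl, hlq⟩ : ∃ l : ℕ, l.Prime ∧ q ≠ l := by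
    by_cases h : q = 3
    · exact ⟨5, Nat.prime_five, by omega⟩
    · exact ⟨3, Nat.prime_three, h⟩
  have := Fact.mk hl
  have := isElliptic_of_delta_ne_zero hΔ
  have : CharZero (FractionRing ℤ_[l]) :=
    charZero_of_injective_algebraMap (IsFractionRing.injective ℤ_[l] _)
  have : NeZero (M * q) := ⟨mul_ne_zero (NeZero.ne M) hq.ne_zero⟩
  exact modular_of_occurs hΔ (occurs_drop hq hlq hqM hgood
    (mem_badSet_of_dvd (N := M * q) (T := {l}) hq (dvd_mul_left q M))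
    (mem_badSet_of_mem (Finset.mem_singleton_self l))
    (fun r hr h => mem_badSet_of_dvd hr (h.trans (dvd_mul_right M q)))
    (fun ℓ hℓ h => mem_badSet_of_dvd_delta hΔ hℓ h)
    (occurs_of_modular hmod _ fun ℓ hℓ h => mem_badSet_of_dvd_delta hΔ hℓ h))

/-- The square of a prime `≠ p` drops to a single prime. -/
theorem modular_div_square [Fact p.Prime]
    (hgeo : ∀ (N w : ℕ) [NeZero N] [NeZero w], w.Prime → ¬ w ∣ N → ModularCurve.nuTwo N = 0 →
      ModularCurve.nuThree N = 0 → SquareOld.FixedKilledByNorms N w)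
    (hΔ : W.Δ ≠ 0) (hss : W.IsSemistableModel) (hirr : W.ModRepIsIrreducible p) {M q : ℕ}
    [NeZero M] (hq : q.Prime) (hqp : q ≠ p) (hqM : ¬ q ∣ M)
    (hmod : W.IsModularModelOfLevel (M * q * q)) : W.IsModularModelOfLevel (M * q) := by
  classical
  have := isElliptic_of_delta_ne_zero hΔ
  have : CharZero (FractionRing ℤ_[p]) :=
    charZero_of_injective_algebraMap (IsFractionRing.injective ℤ_[p] _)
  have : NeZero q := ⟨hq.ne_zero⟩
  have : NeZero (M * q) := ⟨mul_ne_zero (NeZero.ne M) hq.ne_zero⟩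
  have : NeZero (M * q * q) := ⟨mul_ne_zero (NeZero.ne _) hq.ne_zero⟩
  set S₀ := badSet W (M * q * q) {p}
  obtain ⟨r, hrS, hr, hr12⟩ := Nat.forall_exists_prime_gt_and_eq_mod
    (show IsUnit (11 : ZMod 12) by decide) (S₀.sup id)
  have := Fact.mk hr
  have : NeZero r := ⟨hr.ne_zero⟩
  have : NeZero (M * r) := ⟨mul_ne_zero (NeZero.ne M) hr.ne_zero⟩
  have hrmem : r ∉ S₀ := fun h => absurd (Finset.le_sup (f := id) h) (not_le.mpr hrS)
  have hmod12 : r % 12 = 11 := by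
    have := congrArg ZMod.val hr12
    rwa [ZMod.val_natCast] at this
  have hrq : r ≠ q := fun h => hrmem (h ▸ mem_badSet_of_dvd hq (dvd_mul_left q _))
  have hrp : r ≠ p := fun h => hrmem (h ▸ mem_badSet_of_mem (Finset.mem_singleton_self p))
  have hgood : W.IsGoodPrimeFor r := fun h => hrmem (mem_badSet_of_dvd_delta hΔ hr h)
  have hrMq : ¬ r ∣ M * q := fun h => hrmem (mem_badSet_of_dvd hr (h.trans (dvd_mul_right _ q)))
  set S := badSet W (M * r * q * q) {p}
  have : NeZero (M * r * q * q) :=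
    ⟨mul_ne_zero (mul_ne_zero (NeZero.ne _) hq.ne_zero) hq.ne_zero⟩
  have hbadS : ∀ ℓ : ℕ, ℓ.Prime → (ℓ : ℤ) ∣ W.Δ → ℓ ∈ S := fun ℓ hℓ h =>
    mem_badSet_of_dvd_delta hΔ hℓ h
  have hpS : p ∈ S := mem_badSet_of_mem (Finset.mem_singleton_self p)
  have hup := RowS36.occurs_up (M' := M * r * q * q) ⟨r, by ring⟩
    (occurs_of_modular hmod (FractionRing ℤ_[p]) hbadS)
  have hqMr : ¬ q ∣ M * r := fun h => (hq.dvd_mul.mp h).elim hqM fun h =>
    hrq ((Nat.prime_dvd_prime_iff_eq hq hr).mp h).symm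
  rw [← algebraMap_curveSystem ℤ_[p]] at hup
  have hlow := SquareOld.squareLevelIsOld_of_fixedKilled (O := ℤ_[p]) (p := p)
    (hgeo (M * r) q hq hqMr
      (RowS36.nuTwo_eq_zero_of_prime_dvd (dvd_mul_left r M) (by omega))
      (RowS36.nuThree_eq_zero_of_prime_dvd (dvd_mul_left r M) (by omega)))
    Fact.out hq hqp hqMr (Nat.pos_of_ne_zero (NeZero.ne _)) S _ (tateRep _ p)
    (mem_badSet_of_dvd hq (dvd_mul_left q _)) hpS
    (fun m hm h => mem_badSet_of_dvd hm (h.trans ((dvd_mul_right _ q).trans (dvd_mul_right _ q))))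
    hup (isAttached_tateRep hpS hbadS) (tateRep_no_eigen hirr)
    fun A hA => tateRep_exists_fixed hΔ hss hq hqp hA
  rw [algebraMap_curveSystem, mul_right_comm] at hlow
  exact modular_of_occurs hΔ (occurs_drop hr hrp hrMq hgood
    (mem_badSet_of_dvd hr (((dvd_mul_left r M).trans (dvd_mul_right _ q)).trans (dvd_mul_right _ q)))
    hpS
    (fun m hm h => mem_badSet_of_dvd hm (h.trans ⟨r * q, by ring⟩)) hbadS hlow)

/-- A cube-free level may be replaced by the conductor level. -/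
theorem isModularModelOfLevel_conductorLevel [Fact p.Prime]
    (hgeo : ∀ (N w : ℕ) [NeZero N] [NeZero w], w.Prime → ¬ w ∣ N → ModularCurve.nuTwo N = 0 →
      ModularCurve.nuThree N = 0 → SquareOld.FixedKilledByNorms N w)
    (hΔ : W.Δ ≠ 0) (hss : W.IsSemistableModel) (hirr : W.ModRepIsIrreducible p) (N : ℕ)
    (hp2N : ¬ p ^ 2 ∣ N) (hN : W.IsModularModelOfLevel N)
    (hN3 : ∀ q : ℕ, q.Prime → ¬ q ^ 3 ∣ N) :
    W.IsModularModelOfLevel W.conductorLevel := by
  induction N using Nat.strong_induction_on with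
  | _ N ih =>
    have : NeZero N := ⟨fun h => hN3 2 Nat.prime_two (h ▸ dvd_zero _)⟩
    by_cases hsq : ∃ q : ℕ, q.Prime ∧ q ^ 2 ∣ N
    · obtain ⟨q, hq, M, rfl⟩ := hsq
      have e : M * q * q = q ^ 2 * M := by ring
      have : NeZero M := ⟨fun h => NeZero.ne (q ^ 2 * M) (by rw [h, mul_zero])⟩
      have hqM : ¬ q ∣ M := fun ⟨c, hc⟩ => hN3 q hq ⟨c, by rw [hc]; ring⟩
      have hqp : q ≠ p := fun h => hp2N ⟨M, by rw [h]⟩
      have hd : M * q ∣ q ^ 2 * M := ⟨q, by ring⟩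
      refine ih (M * q) ?_ (fun h => hp2N (h.trans hd))
        (modular_div_square hgeo hΔ hss hirr hq hqp hqM (e ▸ hN))
        fun r hr h => hN3 r hr (h.trans hd)
      rw [← e]
      exact lt_mul_of_one_lt_right
        (Nat.pos_of_ne_zero (mul_ne_zero (NeZero.ne M) hq.ne_zero)) hq.one_lt
    by_cases hgd : ∃ q : ℕ, q.Prime ∧ q ∣ N ∧ W.IsGoodPrimeFor q
    · obtain ⟨q, hq, ⟨M, rfl⟩, hgood⟩ := hgd
      have : NeZero M := ⟨fun h => NeZero.ne (q * M) (by rw [h, mul_zero])⟩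
      have hqM : ¬ q ∣ M := fun ⟨c, hc⟩ => hsq ⟨q, hq, c, by rw [hc]; ring⟩
      have hd : M ∣ q * M := dvd_mul_left M q
      exact ih M (lt_mul_of_one_lt_left (Nat.pos_of_ne_zero (NeZero.ne M)) hq.one_lt)
        (fun h => hp2N (h.trans hd))
        (modular_div_good hΔ hq hqM hgood (mul_comm q M ▸ hN))
        fun r hr h => hN3 r hr (h.trans hd)
    refine modular_up hΔ hN ?_
    have hsf : Squarefree N := Nat.squarefree_iff_prime_squarefree.mpr fun q hq h =>
      hsq ⟨q, hq, by rwa [pow_two]⟩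
    rw [← Nat.prod_primeFactors_of_squarefree hsf]
    refine Finset.prod_primes_dvd _ (fun q hq => (Nat.prime_of_mem_primeFactors hq).prime)
      fun q hq => ?_
    have hq' := Nat.mem_primeFactors.mp hq
    exact (W.prime_dvd_conductorLevel_iff hΔ hq'.1).mpr
      (not_not.mp fun h => hgd ⟨q, hq'.1, hq'.2.1, h⟩)

/-- The frozen statement from the geometric input at the squares. -/
theorem conductorLevel_of_geo [Fact p.Prime]
    (hgeo : ∀ (N w : ℕ) [NeZero N] [NeZero w], w.Prime → ¬ w ∣ N → ModularCurve.nuTwo N = 0 →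
      ModularCurve.nuThree N = 0 → SquareOld.FixedKilledByNorms N w)
    (W : WeierstrassCurve ℤ) (hss : W.IsSemistableModel) (N : ℕ)
    (hirr : W.ModRepIsIrreducible p) (hp2N : ¬ p ^ 2 ∣ N) (hN : W.IsModularModelOfLevel N)
    (hbad : ∀ ℓ : ℕ, ℓ.Prime → (ℓ : ℤ) ∣ W.Δ → ℓ ∣ N)
    (hN3 : ∀ q : ℕ, q.Prime → ¬ q ^ 3 ∣ N) :
    W.IsModularModelOfLevel W.conductorLevel := by
  refine isModularModelOfLevel_conductorLevel hgeo (fun hΔ => ?_) hss hirr N hp2N hN hN3
  have hN0 : N ≠ 0 := fun h => hN3 2 Nat.prime_two (h ▸ dvd_zero _)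
  obtain ⟨ℓ, hℓN, hℓ⟩ := Nat.exists_infinite_primes (N + 1)
  have := Nat.le_of_dvd (Nat.pos_of_ne_zero hN0) (hbad ℓ hℓ (hΔ ▸ dvd_zero _))
  omega

end Fermat.Agent.RowS58
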