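import Fermat.Agent.EigenSystems.ModularModel
import Fermat.Agent.RowS36.Levels

/-!
# The eigen system of a modular curve over any field of characteristic zero

The trace of the reduction at a prime is never `± (ℓ + 1)` (counting points), so the system is never
Eisenstein, and modularity at a level is the same as occurring at that level, over any field.
-/

set_option autoImplicit false

open CongruenceSubgroup

namespace Fermat.Agent.RowS58

open EigenSystems HeckeModule

/-- Between `1` and `2 q + 1` points modulo `q`. -/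
theorem card_reductionMod_bounds (W : WeierstrassCurve ℤ) {q : ℕ} (hq : q.Prime) :
    1 ≤ (W.reductionMod q).card ∧ (W.reductionMod q).card ≤ 2 * q + 1 := by
  classical
  have := Fact.mk hq
  set W₀ := (W.reductionMod q).toAffine with hW₀
  refine ⟨Nat.card_pos, ?_⟩
  let y₀ : ZMod q → ZMod q := fun x => if h : ∃ y, W₀.Equation x y then h.choose else 0
  let f : W₀.Point → Option (ZMod q × Bool) := fun P => match P with
    | .zero => none
    | .some x y _ => some (x, decide (y = y₀ x))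
  have hf : Function.Injective f := by
    rintro (_ | ⟨x, y, h⟩) (_ | ⟨x', y', h'⟩) he <;> simp only [f, Option.some.injEq,
      Prod.mk.injEq, reduceCtorEq, decide_eq_decide] at he
    · rfl
    · obtain ⟨rfl, hb⟩ := he
      suffices y = y' by subst this; rfl
      have hex : ∃ z, W₀.Equation x z := ⟨y, h.1⟩
      have h0 : W₀.Equation x (y₀ x) := by simp only [y₀, dif_pos hex]; exact hex.choose_spec
      by_cases hy : y = y₀ x
      · rw [hy, hb.mp hy]
      · have hy' : y' ≠ y₀ x := fun e => hy (hb.mpr e)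
        rw [(WeierstrassCurve.Affine.Y_eq_of_X_eq h.1 h0 rfl).resolve_left hy,
          (WeierstrassCurve.Affine.Y_eq_of_X_eq h'.1 h0 rfl).resolve_left hy']
  refine (Nat.card_le_card_of_injective f hf).trans (le_of_eq ?_)
  rw [Nat.card_eq_fintype_card, Fintype.card_option, Fintype.card_prod, Fintype.card_bool,
    ZMod.card, mul_comm]

/-- The trace is not `± (q + 1)`. -/
theorem apOfModel_sq_ne (W : WeierstrassCurve ℤ) {q : ℕ} (hq : q.Prime) {K : Type} [CommRing K]
    [IsDomain K] [CharZero K] : ((W.apOfModel q : ℤ) : K) ^ 2 ≠ ((q : K) + 1) ^ 2 := by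
  intro h
  have h' : W.apOfModel q ^ 2 = ((q : ℤ) + 1) ^ 2 := by exact_mod_cast h
  obtain ⟨h1, h2⟩ := card_reductionMod_bounds W hq
  rcases sq_eq_sq_iff_eq_or_eq_neg.mp h' with e | e <;>
    simp only [WeierstrassCurve.apOfModel, WeierstrassCurve.traceOfFrobenius, Nat.card_zmod] at e <;>
    omega

/-- The coefficient system of a curve. -/
noncomputable def curveSystem (W : WeierstrassCurve ℤ) (K : Type) [Ring K] (ℓ : ℕ) : K := (W.apOfModel ℓ : ℤ)

/-- The system of a curve is nowhere Eisenstein. -/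
theorem nonEisenstein (W : WeierstrassCurve ℤ) (K : Type) [CommRing K] [IsDomain K] [CharZero K]
    (L : ℕ) [NeZero L] (S : Finset ℕ) : NonEisensteinSystem L S (curveSystem W K) := by
  obtain ⟨ℓ, hℓ, hℓp, hℓ1⟩ := Nat.forall_exists_prime_gt_and_eq_mod (isUnit_one (M := ZMod L))
    (S.sup id)
  exact ⟨ℓ, hℓp, fun h => absurd (Finset.le_sup (f := id) h) (not_le.mpr hℓ), hℓ1,
    fun e => apOfModel_sq_ne W hℓp (congrArg (· ^ 2) e)⟩

variable {W : WeierstrassCurve ℤ} {N : ℕ} [NeZero N]

/-- Modular at `N`: the system occurs over every field of characteristic zero. -/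
theorem occurs_of_modular (hmod : W.IsModularModelOfLevel N) (K : Type) [Field K] [CharZero K]
    {S : Finset ℕ} (hS : ∀ ℓ : ℕ, ℓ.Prime → (ℓ : ℤ) ∣ W.Δ → ℓ ∈ S) :
    Engine.Occurs K N 1 S (curveSystem W K) := by
  classical
  obtain ⟨g, hg, hcoef⟩ := hmod
  obtain ⟨c, hc0, hc⟩ := exists_class_of_eigenform (K := ℂ) scalarRep_one hg
    (integralClosure ℤ ℂ).val.toRingHom
  obtain ⟨z, rfl⟩ := toCoh_surjective _ c
  obtain ⟨γ₀, hγ₀⟩ : ∃ γ, z.1 γ ≠ 0 := by
    by_contra h
    push Not at h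
    exact hc0 (by rw [show z = 0 from Subtype.ext (funext h), map_zero])
  obtain ⟨φ, hφ⟩ : ∃ φ : Module.Dual ℚ ℂ, φ (z.1 γ₀) ≠ 0 := by
    by_contra h
    push Not at h
    exact hγ₀ ((Module.forall_dual_apply_eq_zero_iff ℚ _).mp h)
  let f : ℂ →+ K := (algebraMap ℚ K).toAddMonoidHom.comp φ.toAddMonoidHom
  refine ⟨toCoh _ (mapCocycle (σ := scalarRep (1 : (ZMod N)ˣ →* K) K) scalarRep_one scalarRep_one
    f z), fun h0 => ?_, fun ℓ hℓ hℓS hℓN => ?_⟩
  · have h' := congrArg (fun w : Cocycle _ => w.1 γ₀)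
      ((toCoh_eq_zero_iff_of_trivial scalarRep_one).mp h0)
    exact hφ ((algebraMap ℚ K).injective (h'.trans (map_zero (algebraMap ℚ K)).symm))
  · haveI : NeZero ℓ := ⟨hℓ.out.ne_zero⟩
    refine mapCocycle_eigen scalarRep_one scalarRep_one f (hc ℓ) fun γ => ?_
    have e : ((integralClosure ℤ ℂ).val.toRingHom ⟨_, isIntegral_qCoeff hg ℓ⟩ : ℂ) =
        ((W.apOfModel ℓ : ℤ) : ℂ) := hcoef ℓ hℓ.out (fun h => hℓS (hS ℓ hℓ.out h)) hℓN
    rw [e, curveSystem, smul_eq_mul, smul_eq_mul, ← zsmul_eq_mul, map_zsmul, zsmul_eq_mul]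

/-- The system occurs at `N`: modular at `N`. -/
theorem modular_of_occurs (hΔ : W.Δ ≠ 0) {K : Type} [Field K] [CharZero K] {S : Finset ℕ}
    (h : Engine.Occurs K N 1 S (curveSystem W K)) : W.IsModularModelOfLevel N :=
  isModularModelOfLevel_of_occurs hΔ h (nonEisenstein W K N S) ∅ fun _ _ _ => rfl

/-- Modular at a level: modular at every multiple. -/
theorem modular_up (hΔ : W.Δ ≠ 0) (hmod : W.IsModularModelOfLevel N) {N' : ℕ} [NeZero N']
    (hd : N ∣ N') : W.IsModularModelOfLevel N' :=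
  modular_of_occurs hΔ (RowS36.occurs_up hd (occurs_of_modular hmod ℚ (S := W.Δ.natAbs.primeFactors)
    fun _ hℓ h => Nat.mem_primeFactors.mpr
      ⟨hℓ, Int.natCast_dvd.mp h, Int.natAbs_ne_zero.mpr hΔ⟩))

end Fermat.Agent.RowS58
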