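import Fermat.Agent.BigImage.TateImage
import Fermat.Agent.EllLocal.Mult.TateShape
import Fermat.Agent.EllLocal.TateDet
import Fermat.Agent.TwoAdic.CurvePoint.Trace
import Fermat.Agent.RowS58.Systems
import Fermat.Agent.RowS36.Attach

/-!
# The Tate module of a semistable curve as the representation of its system

Attached to the system of the curve, without a line stable by Galois when the torsion is
irreducible, and with a vector fixed by inertia away from `p`.
-/

set_option autoImplicit false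
set_option linter.unusedSectionVars false

noncomputable section

open IsLocalRing
open scoped WeierstrassCurve.Affine

namespace Fermat.Agent.RowS58

open EllLocal BigImage

local notation "Qbar" => AlgebraicClosure ℚ

variable {W : WeierstrassCurve ℤ} {p : ℕ} [Fact p.Prime] [(W.map (Int.castRingHom ℚ)).IsElliptic]

local notation "T" => tateModule (W.map (Int.castRingHom ℚ)) p

/-- The representation is attached to the system of the curve. -/
theorem isAttached_tateRep {S : Finset ℕ} (hpS : p ∈ S)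
    (hS : ∀ ℓ : ℕ, ℓ.Prime → (ℓ : ℤ) ∣ W.Δ → ℓ ∈ S) :
    Engine.IsAttachedSystem ℤ_[p] p (tateRep (W.map (Int.castRingHom ℚ)) p) S
      (curveSystem W ℤ_[p]) := by
  refine ⟨tateRep_detIsCyclotomic _ p, fun ℓ hℓ hℓS A hA σ hσ => ?_⟩
  obtain ⟨b⟩ := nonempty_basis_tateModule (W.map (Int.castRingHom ℚ)) p
  rw [curveSystem, ← TwoAdic.CurvePoint.trace_tateRep_frobenius hℓ (fun h => hℓS (h ▸ hpS))
    (fun h => hℓS (hS ℓ hℓ h)) hA hσ b]
  exact LinearMap.trace_eq_matrix_trace ℤ_[p] b (tateAct σ)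

/-- No line of the Tate module is stable when the torsion is irreducible. -/
theorem tateRep_no_eigen (hirr : W.ModRepIsIrreducible p)
    (v : T) (hv : v ≠ 0) :
    ∃ σ : Qbar ≃ₐ[ℚ] Qbar, ∀ c d : ℤ_[p],
      c • (tateRep (W.map (Int.castRingHom ℚ)) p).ρ σ v = d • v → c = 0 := by
  by_contra hcon
  push Not at hcon
  obtain ⟨b⟩ := nonempty_basis_tateModule (W.map (Int.castRingHom ℚ)) p
  have := Module.Free.of_basis b
  have := Module.Finite.of_basis b
  have : Module.IsTorsionFree ℤ_[p] T := Module.Free.instIsTorsionFree _ _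
  have : IsNoetherian ℤ_[p] T := isNoetherian_of_isNoetherianRing_of_finite ℤ_[p] T
  let L : Submodule ℤ_[p] T :=
    { carrier := {w | ∃ c d : ℤ_[p], c ≠ 0 ∧ c • w = d • v}
      add_mem' := fun {w w'} ⟨c, d, hc, h⟩ ⟨c', d', hc', h'⟩ =>
        ⟨c * c', c' * d + c * d', mul_ne_zero hc hc', by
          linear_combination (norm := module) c' • h + c • h'⟩
      zero_mem' := ⟨1, 0, one_ne_zero, by module⟩
      smul_mem' := fun a w ⟨c, d, hc, h⟩ => ⟨c, a * d, hc, by rw [smul_comm, h, smul_smul]⟩ }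
  have hvL : v ∈ L := ⟨1, 1, one_ne_zero, rfl⟩
  have hσL : ∀ σ : Qbar ≃ₐ[ℚ] Qbar, ∀ w ∈ L, tateAct σ w ∈ L := by
    rintro σ w ⟨c, d, hc, h⟩
    obtain ⟨c₁, d₁, h₁, hc₁⟩ := hcon σ
    refine ⟨c₁ * c, d * d₁, mul_ne_zero hc₁ hc, ?_⟩
    have h' : c • tateAct σ w = d • tateAct σ v := by rw [← map_smul, h, map_smul]
    have h₁' : c₁ • tateAct σ v = d₁ • v := h₁
    linear_combination (norm := module) c₁ • h' + d • h₁'
  let P : Submodule (ZMod p)
      (Submodule.torsionBy ℤ ((W.map (Int.castRingHom ℚ))⁄Qbar).Point (p : ℤ)) :=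
    { carrier := projOne '' (L : Set T)
      add_mem' := by
        rintro _ _ ⟨x, hx, rfl⟩ ⟨y, hy, rfl⟩
        exact ⟨x + y, L.add_mem hx hy, map_add _ _ _⟩
      zero_mem' := ⟨0, L.zero_mem, map_zero _⟩
      smul_mem' := by
        rintro a _ ⟨x, hx, rfl⟩
        refine ⟨(a.val : ℤ_[p]) • x, L.smul_mem _ hx, ?_⟩
        rw [projOne_smul, map_natCast, ZMod.natCast_zmod_val] }
  have hker : ∀ f : T, projOne f = 0 → ∃ g : T, (p : ℤ_[p]) • g = f := fun f hf => by
    simpa using exists_eq_pow_smul_of_apply_eq_zero f 1 (congrArg Subtype.val hf)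
  have hjac : Ideal.span {(p : ℤ_[p])} ≤ Ideal.jacobson ⊥ := by
    rw [← PadicInt.maximalIdeal_eq_span_p, IsLocalRing.jacobson_eq_maximalIdeal ⊥ bot_ne_top]
  rcases hirr.2 P (fun σ x hx => by
      obtain ⟨w, hw, rfl⟩ := hx
      exact ⟨_, hσL σ w hw, rfl⟩) with h | h
  · refine hv ?_
    have hle : L ≤ Ideal.span {(p : ℤ_[p])} • L := fun w hw => by
      obtain ⟨g, hg⟩ := hker w ((Submodule.mem_bot _).mp (h ▸ ⟨w, hw, rfl⟩ :
        projOne w ∈ (⊥ : Submodule (ZMod p)
          (Submodule.torsionBy ℤ ((W.map (Int.castRingHom ℚ))⁄Qbar).Point (p : ℤ)))))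
      obtain ⟨c, d, hc, hcd⟩ := hw
      have hgL : g ∈ L := ⟨c * p, d, mul_ne_zero hc (Nat.cast_ne_zero.mpr (Fact.out : p.Prime).ne_zero),
        by rw [mul_smul, hg, hcd]⟩
      rw [← hg]
      exact Submodule.smul_mem_smul (Ideal.mem_span_singleton_self _) hgL
    have hbot := Submodule.eq_bot_of_le_smul_of_le_jacobson_bot _ L (IsNoetherian.noetherian L) hle hjac
    rw [hbot] at hvL
    exact (Submodule.mem_bot _).mp hvL
  · have hle : (⊤ : Submodule ℤ_[p] T) ≤ L ⊔ Ideal.span {(p : ℤ_[p])} • ⊤ := fun y _ => by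
      obtain ⟨w, hw, hwy⟩ : projOne y ∈ P := h ▸ Submodule.mem_top
      obtain ⟨g, hg⟩ := hker (y - w) (by rw [map_sub, hwy, sub_self])
      rw [show y = w + (p : ℤ_[p]) • g by rw [hg]; abel]
      exact Submodule.add_mem_sup hw
        (Submodule.smul_mem_smul (Ideal.mem_span_singleton_self _) Submodule.mem_top)
    have htop := Submodule.le_of_le_smul_of_le_jacobson_bot Module.Finite.fg_top hjac hle
    obtain ⟨c₀, d₀, hc₀, h₀⟩ := htop (show b 0 ∈ ⊤ from Submodule.mem_top)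
    obtain ⟨c₁, d₁, hc₁, h₁⟩ := htop (show b 1 ∈ ⊤ from Submodule.mem_top)
    have h := congrArg (fun w => b.repr w 1) (show d₁ • (c₀ • b 0) = d₀ • (c₁ • b 1) by
      rw [h₀, h₁, smul_smul, smul_smul, mul_comm])
    simp [hc₁] at h
    rw [h] at h₀
    exact hc₀ ((smul_eq_zero.mp (h₀.trans (zero_smul ℤ_[p] v))).resolve_right (b.ne_zero 0))

/-- Away from `p`, inertia fixes a vector. -/
theorem tateRep_exists_fixed (hΔ : W.Δ ≠ 0) (hss : W.IsSemistableModel) {q : ℕ} (hq : q.Prime)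
    (hqp : q ≠ p) {A : ValuationSubring Qbar} (hA : A.LiesOverPrime q) :
    ∃ v : (tateRep (W.map (Int.castRingHom ℚ)) p).V, v ≠ 0 ∧ ∀ σ ∈ A.inertiaSubgroupIn ℚ,
      (tateRep (W.map (Int.castRingHom ℚ)) p).ρ σ v = v := by
  by_cases hbad : (q : ℤ) ∣ W.Δ
  · exact RowS36.exists_fixed_of_unipotent _
      (Mult.tateRep_isUnipotentOnInertiaAt hq hqp hΔ hbad (hss q hq hbad)) A hA
  · obtain ⟨b⟩ := nonempty_basis_tateModule (W.map (Int.castRingHom ℚ)) p
    refine ⟨b 0, b.ne_zero 0, fun σ hσ => Subtype.ext (funext fun n => ?_)⟩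
    exact MultRed.inertia_smul_eq_of_good hq hA hbad hσ
      (fun hd => hqp ((Nat.prime_dvd_prime_iff_eq hq Fact.out).1 (hq.dvd_of_dvd_pow hd)))
      (tateModule_pow _ n)

end Fermat.Agent.RowS58
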